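import Fermat.Agent.V.Riem2.Bound

/-!
# Program V (S27), A2.2 (classical route), part 4: Riemann's theorem

* `v27q_bound_all` : `∃ γ, ∀ A, deg A - l(A) ≤ γ`;
* `v27q_exists_top` : `∃ D₀, repartitionsOf D₀ ⊔ principalRepartitions K F = ⊤`
  (strong approximation for one divisor, i.e. `H¹(D₀) = 0`);
* `v27q_riemann` : all `H¹(D)` are finite-dimensional and vanish for `deg D ≥ c`.
-/

set_option autoImplicit false
set_option linter.unusedSectionVars false
set_option linter.unusedVariables false

noncomputable section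

namespace Fermat.Agent.V.Riem2

open AlgebraicCurve Module Polynomial IntermediateField Fermat.Agent.S24 Fermat.Agent.V.Dual
  Fermat.Agent.V.RR WithZero

variable {K F : Type*} [Field K] [Field F] [Algebra K F]

/-- `deg - l` is monotone. -/
theorem v27q_defect_mono [HasPrincipalDivisors K F]
    (hres : ∀ v : Place K F, Module.Finite K v.ResidueField) [Nonempty (Place K F)]
    {D D' : Divisor K F} (h : D ≤ D') :
    Divisor.degree D - finrank K (riemannRochSpace D) ≤
      Divisor.degree D' - finrank K (riemannRochSpace D') := by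
  have := v27r_rrSpace_finrank_le hres h
  linarith

/-- the bound along the multiples of the pole divisor. -/
theorem v27q_bound_pole [HasPrincipalDivisors K F]
    (hres : ∀ v : Place K F, Module.Finite K v.ResidueField) [Nonempty (Place K F)]
    {x : F} (ht : IsSepGen K x) :
    ∃ γ : ℤ, ∀ l : ℕ, Divisor.degree (l • v27q_poleDiv K x) -
      finrank K (riemannRochSpace (l • v27q_poleDiv K x)) ≤ γ := by
  obtain ⟨C, hC, hl⟩ := v27q_le_finrank_rrSpace hres ht
  refine ⟨Divisor.degree C - finrank K⟮x⟯ F, fun l => ?_⟩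
  have h1 := v27r_rrSpace_finrank_le hres
    (show l • v27q_poleDiv K x ≤ l • v27q_poleDiv K x + C from le_add_of_nonneg_right hC)
  have h2 : ((finrank K⟮x⟯ F * (l + 1) : ℕ) : ℤ) ≤
      finrank K (riemannRochSpace (l • v27q_poleDiv K x + C)) := by exact_mod_cast hl l
  rw [map_add] at h1
  rw [map_nsmul, v27q_degree_poleDiv ht] at h1 ⊢
  push_cast at h2
  simp only [nsmul_eq_mul] at h1 ⊢
  nlinarith

/-- **Riemann's bound**: `deg A - l(A) ≤ γ` for all divisors `A`. -/
theorem v27q_bound_all [HasPrincipalDivisors K F]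
    (hres : ∀ v : Place K F, Module.Finite K v.ResidueField) [Nonempty (Place K F)]
    {x : F} (ht : IsSepGen K x) :
    ∃ γ : ℤ, ∀ A : Divisor K F,
      Divisor.degree A - finrank K (riemannRochSpace A) ≤ γ := by
  obtain ⟨γ, hγ⟩ := v27q_bound_pole hres ht
  refine ⟨γ, fun A => ?_⟩
  have := ht.finite
  have hn : (1 : ℤ) ≤ finrank K⟮x⟯ F := by
    have : 0 < finrank K⟮x⟯ F := Module.finrank_pos
    exact_mod_cast this
  set B := v27q_poleDiv K x with hB
  set A₁ : Divisor K F := A ⊔ 0 with hA₁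
  have hA₁0 : 0 ≤ A₁ := le_sup_right
  have hAA₁ : A ≤ A₁ := le_sup_left
  -- choose `l` large
  set t : ℤ := |γ + Divisor.degree A₁| + 1 with ht'
  have ht0 : 0 < t := by positivity
  set l : ℕ := t.toNat with hl
  have hlt : (l : ℤ) = t := Int.toNat_of_nonneg ht0.le
  -- `l(lB - A₁) > 0`
  have h1 := v27r_rrSpace_finrank_le hres
    (show l • B - A₁ ≤ l • B from sub_le_self _ hA₁0)
  have h2 := hγ l
  rw [map_sub] at h1
  rw [map_nsmul, v27q_degree_poleDiv ht, nsmul_eq_mul] at h2
  have hpos : 0 < finrank K (riemannRochSpace (l • B - A₁)) := by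
    have h3 : (0 : ℤ) < finrank K (riemannRochSpace (l • B - A₁)) := by
      have h4 : γ + Divisor.degree A₁ < (l : ℤ) * finrank K⟮x⟯ F := by
        rw [hlt]
        have := le_abs_self (γ + Divisor.degree A₁)
        nlinarith
      linarith
    exact_mod_cast h3
  have hne : riemannRochSpace (l • B - A₁) ≠ ⊥ := by
    intro h0
    rw [h0, finrank_bot] at hpos
    exact lt_irrefl _ hpos
  obtain ⟨z, hz, hz0⟩ := Submodule.exists_mem_ne_zero_of_ne_bot hne
  rw [v27d_mem_rrSpace_iff hz0] at hz
  -- `D = A₁ - (z) ≤ lB`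
  have hD : A₁ - v27d_div K z ≤ l • B := by
    have := add_le_add_left hz (A₁ - v27d_div K z + (l • B - A₁))
    simpa [sub_eq_add_neg, add_comm, add_left_comm, add_assoc] using this
  calc Divisor.degree A - finrank K (riemannRochSpace A)
      ≤ Divisor.degree A₁ - finrank K (riemannRochSpace A₁) := v27q_defect_mono hres hAA₁
    _ = Divisor.degree (A₁ - v27d_div K z) -
          finrank K (riemannRochSpace (A₁ - v27d_div K z)) := by
        rw [v27q_degree_sub_div, v27q_finrank_rrSpace_sub_div A₁ hz0]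
    _ ≤ Divisor.degree (l • B) - finrank K (riemannRochSpace (l • B)) :=
        v27q_defect_mono hres hD
    _ ≤ γ := hγ l

/-- **Strong approximation for one divisor**: `A(D₀) + F = A` for a suitable `D₀`. -/
theorem v27q_exists_top [HasPrincipalDivisors K F]
    (hres : ∀ v : Place K F, Module.Finite K v.ResidueField) [Nonempty (Place K F)]
    {x : F} (ht : IsSepGen K x) :
    ∃ D₀ : Divisor K F, repartitionsOf D₀ ⊔ principalRepartitions K F = ⊤ := by
  obtain ⟨γ, hγ⟩ := v27q_bound_all hres ht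
  obtain ⟨z, ⟨D₀, rfl⟩, hmax⟩ := Int.exists_greatest_of_bdd
    (P := fun z => ∃ D : Divisor K F,
      Divisor.degree D - finrank K (riemannRochSpace D) = z)
    ⟨γ, by rintro z ⟨D, rfl⟩; exact hγ D⟩ ⟨_, 0, rfl⟩
  refine ⟨D₀, ?_⟩
  rw [eq_top_iff]
  intro α _
  obtain ⟨D', hle, hα⟩ := v27q_exists_ge_mem D₀ α
  obtain ⟨hkfin, hk⟩ := v27r_ker_count hres hle
  have hmax' := hmax _ ⟨D', rfl⟩
  have hk0 : finrank K ↥(LinearMap.ker (v27r_H1map hle)) = 0 := by
    have h1 : (finrank K ↥(LinearMap.ker (v27r_H1map hle)) : ℤ) ≤ 0 := by linarith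
    have h2 : (0 : ℤ) ≤ finrank K ↥(LinearMap.ker (v27r_H1map hle)) := Int.natCast_nonneg _
    have : (finrank K ↥(LinearMap.ker (v27r_H1map hle)) : ℤ) = 0 := le_antisymm h1 h2
    exact_mod_cast this
  have hbot : LinearMap.ker (v27r_H1map hle) = ⊥ := Submodule.finrank_eq_zero.mp hk0
  have hmem : (Submodule.Quotient.mk α : H1 D₀) ∈ LinearMap.ker (v27r_H1map hle) := by
    rw [LinearMap.mem_ker]
    show (Submodule.Quotient.mk α : H1 D') = 0
    rw [Submodule.Quotient.mk_eq_zero]
    exact Submodule.mem_sup_left hα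
  rw [hbot, Submodule.mem_bot, Submodule.Quotient.mk_eq_zero] at hmem
  exact hmem

end Fermat.Agent.V.Riem2
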