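import Fermat.Agent.V.Riem2.Shift
import Fermat.Agent.V.RR.Const
import Fermat.Agent.V.Rep.Main
import Fermat.Agent.S24.Places

/-!
# Program V (S27), A2.2 (classical route), part 3: Riemann's bound `deg A - l(A) ≤ γ`

For a separating variable `x` (`S24.IsSepGen K x`), `B = (x)_∞`:
* `v27q_degree_poleDiv`  : `deg B = [F : K(x)]`   (from main's `IsSepGen.sum_ord_mul_deg`);
* `v27q_le_finrank_rrSpace` : `∃ C ≥ 0, ∀ l, [F:K(x)]·(l+1) ≤ l(lB + C)`;
* `v27q_bound_all` : `∃ γ, ∀ A, deg A - l(A) ≤ γ`.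
-/

set_option autoImplicit false
set_option linter.unusedSectionVars false
set_option linter.unusedVariables false

noncomputable section

namespace Fermat.Agent.V.Riem2

open AlgebraicCurve Module Polynomial IntermediateField Fermat.Agent.S24 Fermat.Agent.V.Dual
  Fermat.Agent.V.RR WithZero

variable {K F : Type*} [Field K] [Field F] [Algebra K F]

variable (K) in
/-- the pole divisor of `x`. -/
def v27q_poleDiv [HasPrincipalDivisors K F] (x : F) : Divisor K F := v27d_div K x⁻¹ ⊔ 0

theorem v27q_poleDiv_apply [HasPrincipalDivisors K F] (x : F) (v : Place K F) :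
    v27q_poleDiv K x v = max (-(v.ord x)) 0 := by
  rw [v27q_poleDiv, Finsupp.sup_apply, v27d_div_apply', Place.ord_inv]
  rfl

theorem v27q_poleDiv_nonneg [HasPrincipalDivisors K F] (x : F) : 0 ≤ v27q_poleDiv K x :=
  le_sup_right

theorem v27q_val_le_exp_poleDiv [HasPrincipalDivisors K F] (x : F) (v : Place K F) :
    v.adicValuation x ≤ exp (v27q_poleDiv K x v) := by
  rw [Place.adicValuation_le_exp_iff, v27q_poleDiv_apply]
  rcases eq_or_ne x 0 with rfl | hx
  · exact Or.inl rfl
  · right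
    have := le_max_left (-(v.ord x)) 0
    omega

theorem v27q_one_le_exp_poleDiv [HasPrincipalDivisors K F] (x : F) (v : Place K F) :
    (1 : ℤᵐ⁰) ≤ exp (v27q_poleDiv K x v) := by
  rw [← WithZero.exp_zero, exp_le_exp, v27q_poleDiv_apply]
  exact le_max_right _ _

/-- `deg (x)_∞ = [F : K(x)]`. -/
theorem v27q_degree_poleDiv [HasPrincipalDivisors K F] {x : F} (ht : IsSepGen K x) :
    Divisor.degree (v27q_poleDiv K x) = (finrank K⟮x⟯ F : ℤ) := by
  have ht' := ht.inv
  rw [← ht.finrank_inv, ← ht'.sum_ord_mul_deg, v27rr_degree_eq_sum,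
    Finsupp.sum_of_support_subset _ (s := ht'.finite_ord_pos.toFinset)]
  · refine Finset.sum_congr rfl fun v hv => ?_
    rw [Set.Finite.mem_toFinset, Set.mem_ofPred_eq] at hv
    rw [v27q_poleDiv_apply, ← Place.ord_inv, max_eq_left hv.le]
  · intro v hv
    rw [Finsupp.mem_support_iff, v27q_poleDiv_apply, ← Place.ord_inv] at hv
    rw [Set.Finite.mem_toFinset, Set.mem_ofPred_eq]
    by_contra hcon
    exact hv (max_eq_right (not_lt.mp hcon))
  · intro v _
    simp

/-- the `K`-linear map `(p_j)_j ↦ ∑_j p_j(x) u_j`. -/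
def v27q_Phi {n : ℕ} (x : F) (u : Fin n → F) (l : ℕ) :
    (Fin n → degreeLT K (l + 1)) →ₗ[K] F :=
  ∑ j : Fin n, (LinearMap.mulRight K (u j)) ∘ₗ (aeval x).toLinearMap ∘ₗ
    (degreeLT K (l + 1)).subtype ∘ₗ (LinearMap.proj j)

theorem v27q_Phi_apply {n : ℕ} (x : F) (u : Fin n → F) (l : ℕ)
    (p : Fin n → degreeLT K (l + 1)) :
    v27q_Phi x u l p = ∑ j : Fin n, aeval x ((p j : K[X])) * u j := by
  simp [v27q_Phi, LinearMap.sum_apply]

theorem v27q_natDegree_le_of_mem {l : ℕ} (q : degreeLT K (l + 1)) : (q : K[X]).natDegree ≤ l := by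
  have h := Polynomial.mem_degreeLT.mp q.2
  rcases eq_or_ne (q : K[X]) 0 with h0 | h0
  · rw [h0]; simp
  · rw [Polynomial.degree_eq_natDegree h0] at h
    have : (q : K[X]).natDegree < l + 1 := by exact_mod_cast h
    omega

/-- `Φ` lands in `L(lB + C)`. -/
theorem v27q_Phi_mem [HasPrincipalDivisors K F] {n : ℕ} (x : F) (u : Fin n → F) (l : ℕ)
    (p : Fin n → degreeLT K (l + 1)) :
    v27q_Phi x u l p ∈ riemannRochSpace
      (l • v27q_poleDiv K x + ∑ j : Fin n, v27q_poleDiv K (u j)) := by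
  intro v
  rw [v27q_Phi_apply]
  refine Valuation.map_sum_le _ fun j _ => ?_
  rw [map_mul, Finsupp.add_apply, Finsupp.smul_apply, WithZero.exp_add, WithZero.exp_nsmul]
  refine mul_le_mul' ?_ ?_
  · exact v27q_val_aeval_le v.adicValuation v.adicValuation_algebraMap_le_one x
      (v27q_one_le_exp_poleDiv x v) (v27q_val_le_exp_poleDiv x v) (v27q_natDegree_le_of_mem (p j))
  · refine (v27q_val_le_exp_poleDiv (u j) v).trans ?_
    rw [exp_le_exp, Finsupp.finsetSum_apply]
    exact Finset.single_le_sum (f := fun i => v27q_poleDiv K (u i) v)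
      (fun i _ => Finsupp.le_def.mp (v27q_poleDiv_nonneg (u i)) v) (Finset.mem_univ j)

/-- `Φ` is injective when `x` is transcendental and the `u_j` are independent over `K(x)`. -/
theorem v27q_Phi_injective {n : ℕ} {x : F} (hx : Transcendental K x) (u : Fin n → F)
    (hu : LinearIndependent K⟮x⟯ u) (l : ℕ) : Function.Injective (v27q_Phi (K := K) x u l) := by
  rw [← LinearMap.ker_eq_bot, LinearMap.ker_eq_bot']
  intro p hp
  rw [v27q_Phi_apply] at hp
  have h1 : ∑ j : Fin n, (aeval (AdjoinSimple.gen K x) ((p j : K[X])) : K⟮x⟯) • u j = 0 := by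
    rw [← hp]
    refine Finset.sum_congr rfl fun j _ => ?_
    rw [Algebra.smul_def]
    congr 1
    have := IntermediateField.aeval_coe K⟮x⟯ (AdjoinSimple.gen K x) ((p j : K[X]))
    rw [AdjoinSimple.coe_gen] at this
    exact this.symm
  have h2 := Fintype.linearIndependent_iff.mp hu _ h1
  funext j
  apply Subtype.ext
  have h3 : aeval x ((p j : K[X])) = 0 := by
    have := IntermediateField.aeval_coe K⟮x⟯ (AdjoinSimple.gen K x) ((p j : K[X]))
    rw [AdjoinSimple.coe_gen, h2 j] at this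
    simpa using this
  have h4 : (p j : K[X]) = 0 := (transcendental_iff_injective.mp hx) (by rw [h3, map_zero])
  rw [h4]
  rfl

theorem v27q_finrank_dom (n l : ℕ) :
    finrank K (Fin n → degreeLT K (l + 1)) = n * (l + 1) := by
  have : ∀ j : Fin n, Module.Finite K (degreeLT K (l + 1)) := fun _ =>
    Module.Finite.equiv (degreeLTEquiv K (l + 1)).symm
  rw [Module.finrank_pi_fintype]
  simp only [(degreeLTEquiv K (l + 1)).finrank_eq, Module.finrank_fin_fun, Finset.sum_const,
    Finset.card_univ, Fintype.card_fin, smul_eq_mul]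

/-- `∃ C ≥ 0, ∀ l, [F:K(x)]·(l+1) ≤ l(lB + C)`. -/
theorem v27q_le_finrank_rrSpace [HasPrincipalDivisors K F]
    (hres : ∀ v : Place K F, Module.Finite K v.ResidueField) [Nonempty (Place K F)]
    {x : F} (ht : IsSepGen K x) :
    ∃ C : Divisor K F, 0 ≤ C ∧ ∀ l : ℕ,
      finrank K⟮x⟯ F * (l + 1) ≤
        finrank K (riemannRochSpace (l • v27q_poleDiv K x + C)) := by
  have := ht.finite
  set n := finrank K⟮x⟯ F with hn
  let b : Basis (Fin n) K⟮x⟯ F := Module.finBasis K⟮x⟯ F
  refine ⟨∑ j : Fin n, v27q_poleDiv K (b j),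
    Finset.sum_nonneg fun j _ => v27q_poleDiv_nonneg (b j), fun l => ?_⟩
  have hfin := v27r_rrSpace_finite hres
    (l • v27q_poleDiv K x + ∑ j : Fin n, v27q_poleDiv K (b j))
  rw [← v27q_finrank_dom (K := K) n l]
  refine LinearMap.finrank_le_finrank_of_injective
    (f := (v27q_Phi x (fun j => b j) l).codRestrict _ (v27q_Phi_mem x (fun j => b j) l)) ?_
  intro p q hpq
  apply v27q_Phi_injective ht.transcendental (fun j => b j) b.linearIndependent l
  exact congrArg Subtype.val hpq

end Fermat.Agent.V.Riem2
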