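import Fermat.Agent.V.Dual.Basic
import Fermat.Agent.S24.PlaceOrd

/-!
# Program V (S27), A2.2 (classical route), part 1: adeles have finitely many poles

Under `[HasPrincipalDivisors K F]` every element of `repartitions K F` has finitely many poles,
hence lies in `repartitionsOf D'` for some `D' ≥ D₀` (`D₀` arbitrary).
-/

set_option autoImplicit false
set_option linter.unusedSectionVars false
set_option linter.unusedVariables false

noncomputable section

namespace Fermat.Agent.V.Riem2

open AlgebraicCurve Module Fermat.Agent.S24 Fermat.Agent.V.Dual WithZero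

variable {K F : Type*} [Field K] [Field F] [Algebra K F]

/-- a function has finitely many poles. -/
theorem v27q_finite_poles_const [HasPrincipalDivisors K F] (f : F) :
    {v : Place K F | ¬ v.adicValuation f ≤ 1}.Finite := by
  refine (v27d_div K f).support.finite_toSet.subset fun v hv => ?_
  rw [Set.mem_ofPred_eq, Place.not_adicValuation_le_one_iff] at hv
  rw [Finset.mem_coe, Finsupp.mem_support_iff, v27d_div_apply']
  omega

/-- every adele has finitely many poles. -/
theorem v27q_finite_poles [HasPrincipalDivisors K F] (α : ↥(repartitions K F)) :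
    {v : Place K F | ¬ v.adicValuation ((α : Place K F → F) v) ≤ 1}.Finite := by
  obtain ⟨a, ha⟩ := α
  show {v : Place K F | ¬ v.adicValuation (a v) ≤ 1}.Finite
  unfold repartitions at ha
  induction ha using Algebra.adjoin_induction with
  | mem x hx => exact hx
  | algebraMap f => exact v27q_finite_poles_const f
  | add x y _ _ hx hy =>
    refine (hx.union hy).subset fun v hv => ?_
    rw [Set.mem_ofPred_eq] at hv
    by_contra hcon
    rw [Set.mem_union, not_or, Set.mem_ofPred_eq, Set.mem_ofPred_eq, not_not, not_not] at hcon
    exact hv ((Valuation.map_add _ _ _).trans (max_le hcon.1 hcon.2))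
  | mul x y _ _ hx hy =>
    refine (hx.union hy).subset fun v hv => ?_
    rw [Set.mem_ofPred_eq] at hv
    by_contra hcon
    rw [Set.mem_union, not_or, Set.mem_ofPred_eq, Set.mem_ofPred_eq, not_not, not_not] at hcon
    apply hv
    show v.adicValuation (x v * y v) ≤ 1
    rw [map_mul]
    exact mul_le_one' hcon.1 hcon.2

/-- every adele lies in `A(D')` for some `D' ≥ D₀`. -/
theorem v27q_exists_ge_mem [HasPrincipalDivisors K F] (D₀ : Divisor K F)
    (α : ↥(repartitions K F)) : ∃ D' : Divisor K F, D₀ ≤ D' ∧ α ∈ repartitionsOf D' := by
  classical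
  have hfin := v27q_finite_poles α
  set s := hfin.toFinset with hs
  set E : Divisor K F := ∑ v ∈ s, Finsupp.single v (-v.ord ((α : Place K F → F) v)) with hE
  have hEv : ∀ w : Place K F, E w = if w ∈ s then -w.ord ((α : Place K F → F) w) else 0 := by
    intro w
    rw [hE, Finsupp.finsetSum_apply]
    simp only [Finsupp.single_apply]
    rw [Finset.sum_ite_eq']
  refine ⟨D₀ ⊔ E, le_sup_left, ?_⟩
  rw [mem_repartitionsOf_iff]
  intro v
  by_cases h0 : (α : Place K F → F) v = 0
  · exact Or.inl h0
  right
  rw [Finsupp.sup_apply, hEv]
  by_cases hv : v ∈ s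
  · rw [if_pos hv]
    have := le_max_right (D₀ v) (-v.ord ((α : Place K F → F) v))
    omega
  · rw [if_neg hv]
    have hnp : v.adicValuation ((α : Place K F → F) v) ≤ 1 := by
      by_contra hcon
      exact hv (hfin.mem_toFinset.mpr hcon)
    have hord : 0 ≤ v.ord ((α : Place K F → F) v) := by
      rcases v.adicValuation_le_one_iff.mp hnp with h | h
      · exact absurd h h0
      · exact h
    have := le_max_right (D₀ v) 0
    omega

end Fermat.Agent.V.Riem2
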