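import Fermat.Agent.V.Riem2.Poles

/-!
# Program V (S27), A2.2 (classical route), part 2

* `v27q_rrSpace_sub_div`: `L(A - (z)) = z • L(A)`, hence `l(A - (z)) = l(A)` and
  `deg (A - (z)) = deg A`.
* `v27q_val_aeval_le`: a polynomial of degree `≤ l` in `x` has valuation `≤ M ^ l` if
  `val x ≤ M`, `1 ≤ M`.
-/

set_option autoImplicit false
set_option linter.unusedSectionVars false
set_option linter.unusedVariables false

noncomputable section

namespace Fermat.Agent.V.Riem2

open AlgebraicCurve Module Polynomial Fermat.Agent.S24 Fermat.Agent.V.Dual WithZero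

variable {K F : Type*} [Field K] [Field F] [Algebra K F]

/-- multiplication by a non-zero function as a `K`-linear automorphism of `F`. -/
def v27q_mulEquiv (z : F) (hz : z ≠ 0) : F ≃ₗ[K] F :=
  LinearEquiv.ofLinearMap (LinearMap.mulLeft K z) (LinearMap.mulLeft K z⁻¹)
    (by ext f; simp [mul_inv_cancel_left₀ hz])
    (by ext f; simp [inv_mul_cancel_left₀ hz])

@[simp]
theorem v27q_mulEquiv_apply (z : F) (hz : z ≠ 0) (f : F) :
    v27q_mulEquiv (K := K) z hz f = z * f := rfl

/-- `L(A - (z)) = z • L(A)`. -/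
theorem v27q_rrSpace_sub_div [HasPrincipalDivisors K F] (A : Divisor K F) {z : F} (hz : z ≠ 0) :
    riemannRochSpace (A - v27d_div K z) =
      (riemannRochSpace A).map (v27q_mulEquiv (K := K) z hz).toLinearMap := by
  ext f
  rw [Submodule.mem_map]
  constructor
  · intro hf
    refine ⟨z⁻¹ * f, ?_, by simp [mul_inv_cancel_left₀ hz]⟩
    rcases eq_or_ne f 0 with rfl | hf0
    · rw [mul_zero]; exact Submodule.zero_mem _
    rw [v27d_mem_rrSpace_iff hf0] at hf
    rw [v27d_mem_rrSpace_iff (mul_ne_zero (inv_ne_zero hz) hf0),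
      v27d_div_mul (inv_ne_zero hz) hf0, v27d_div_inv]
    have := add_le_add_left hf (-v27d_div K z)
    simpa [sub_eq_add_neg, add_comm, add_left_comm, add_assoc] using this
  · rintro ⟨g, hg, rfl⟩
    rw [LinearEquiv.coe_coe, v27q_mulEquiv_apply]
    rcases eq_or_ne g 0 with rfl | hg0
    · rw [mul_zero]; exact Submodule.zero_mem _
    rw [v27d_mem_rrSpace_iff hg0] at hg
    rw [v27d_mem_rrSpace_iff (mul_ne_zero hz hg0), v27d_div_mul hz hg0]
    have := add_le_add_left hg (v27d_div K z)
    simpa [sub_eq_add_neg, add_comm, add_left_comm, add_assoc] using this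

theorem v27q_finrank_rrSpace_sub_div [HasPrincipalDivisors K F] (A : Divisor K F) {z : F}
    (hz : z ≠ 0) :
    finrank K (riemannRochSpace (A - v27d_div K z)) = finrank K (riemannRochSpace A) := by
  rw [v27q_rrSpace_sub_div A hz]
  exact LinearEquiv.finrank_map_eq _ _

theorem v27q_degree_sub_div [HasPrincipalDivisors K F] (A : Divisor K F) (z : F) :
    Divisor.degree (A - v27d_div K z) = Divisor.degree A := by
  rw [map_sub, v27d_degree_div, sub_zero]

/-- valuation bound for polynomials in `x`. -/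
theorem v27q_val_aeval_le {Γ : Type*} [LinearOrderedCommGroupWithZero Γ] (val : Valuation F Γ)
    (hK : ∀ a : K, val (algebraMap K F a) ≤ 1) (x : F) {M : Γ} (hM : 1 ≤ M) (hx : val x ≤ M)
    {l : ℕ} {p : K[X]} (hp : p.natDegree ≤ l) : val (aeval x p) ≤ M ^ l := by
  rw [aeval_eq_sum_range' (Nat.lt_succ_of_le hp)]
  refine Valuation.map_sum_le _ fun i hi => ?_
  rw [Finset.mem_range] at hi
  rw [Algebra.smul_def, map_mul, map_pow]
  calc val (algebraMap K F (p.coeff i)) * val x ^ i ≤ 1 * M ^ i :=
        mul_le_mul' (hK _) (pow_le_pow_left' hx i)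
    _ = M ^ i := one_mul _
    _ ≤ M ^ l := pow_le_pow_right' hM (Nat.le_of_lt_succ hi)

end Fermat.Agent.V.Riem2
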